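import Fermat.Agent.BCh.Orbit
import Fermat.Prelude.Def_AlgebraicCurve_BaseChangeGalois

/-! Extension of the constant field: the function field `B = Frac (U ⊗ F)` and the semilinear
action of `Aut (U / K)` on it; descent of stable subspaces. -/

set_option autoImplicit false
set_option linter.style.haveILetI false

open AlgebraicCurve Module
open scoped TensorProduct

namespace Fermat.Agent.BCh

/-- `B` is the function field obtained from `F` by extending the constants from `K` to `U`. -/
structure Ext (K F U B : Type*) [Field K] [Field F] [Field U] [Field B] [Algebra K F] [Algebra K U]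
    [Algebra U B] where
  /-- the embedding -/
  ι : F →+* B
  ι_alg : ∀ a : K, ι (algebraMap K F a) = algebraMap U B (algebraMap K U a)
  indep : ∀ {n : ℕ} (e : Fin n → F), LinearIndependent K e → LinearIndependent U (fun i => ι (e i))
  frac : ∀ z : B, ∃ a b : B, a ∈ Submodule.span U (Set.range ι) ∧
    b ∈ Submodule.span U (Set.range ι) ∧ b ≠ 0 ∧ z = a / b

variable {K F U B : Type*} [Field K] [Field F] [Field U] [Field B] [Algebra K F] [Algebra K U]
    [Algebra U B]

namespace Ext

variable (d : Ext K F U B)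

theorem indep' {ι' : Type*} {e : ι' → F} (he : LinearIndependent K e) :
    LinearIndependent U (fun i => d.ι (e i)) := by
  classical
  rw [linearIndependent_iff']
  intro s g hg i hi
  have h1 : LinearIndependent K (fun j : Fin s.card => e (s.equivFin.symm j)) :=
    he.comp _ (Subtype.val_injective.comp s.equivFin.symm.injective)
  have h2 := d.indep _ h1
  rw [Fintype.linearIndependent_iff] at h2
  have h3 := h2 (fun j => g (s.equivFin.symm j)) (by
    rw [← hg, ← Finset.sum_coe_sort s]
    exact Equiv.sum_comp s.equivFin.symm (fun j : s => g j • d.ι (e j))) (s.equivFin ⟨i, hi⟩)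
  simpa using h3

/-- the ring generated by `U` and `F` -/
def A : Submodule U B := Submodule.span U (Set.range d.ι)

theorem ι_mem (f : F) : d.ι f ∈ d.A := Submodule.subset_span ⟨f, rfl⟩

theorem mul_mem {a b : B} (ha : a ∈ d.A) (hb : b ∈ d.A) : a * b ∈ d.A := by
  have h : d.A * d.A ≤ d.A := by
    rw [A, Submodule.span_mul_span, Submodule.span_le]
    rintro _ ⟨_, ⟨f, rfl⟩, _, ⟨g, rfl⟩, rfl⟩
    exact Submodule.subset_span ⟨f * g, map_mul _ _ _⟩
  exact h (Submodule.mul_mem_mul ha hb)

theorem prod_mem {ι' : Type*} (s : Finset ι') (f : ι' → B) (h : ∀ i ∈ s, f i ∈ d.A) :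
    ∏ i ∈ s, f i ∈ d.A := by
  classical
  induction s using Finset.induction_on with
  | empty => simpa using d.ι_mem 1
  | insert a s ha ih =>
    rw [Finset.prod_insert ha]
    exact d.mul_mem (h a (Finset.mem_insert_self _ _))
      (ih fun i hi => h i (Finset.mem_insert_of_mem hi))

/-- two ring homs agreeing on `U` and `F` are equal -/
theorem hom_ext {B' : Type*} [Field B'] {τ τ' : B →+* B'}
    (h1 : ∀ a : U, τ (algebraMap U B a) = τ' (algebraMap U B a))
    (h2 : ∀ f : F, τ (d.ι f) = τ' (d.ι f)) : τ = τ' := by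
  have key : ∀ a ∈ d.A, τ a = τ' a := by
    intro a ha
    refine Submodule.span_induction ?_ ?_ ?_ ?_ ha
    · rintro _ ⟨f, rfl⟩
      exact h2 f
    · rw [map_zero, map_zero]
    · intro x y _ _ hx hy
      rw [map_add, map_add, hx, hy]
    · intro c x _ hx
      rw [Algebra.smul_def, map_mul, map_mul, hx, h1]
  ext z
  obtain ⟨a, b, ha, hb, -, rfl⟩ := d.frac z
  rw [map_div₀, map_div₀, key a ha, key b hb]

theorem exists_act (σ : U ≃ₐ[K] U) : ∃ τ : B ≃+* B,
    (∀ a, τ (algebraMap U B a) = algebraMap U B (σ a)) ∧ ∀ f, τ (d.ι f) = d.ι f := by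
  classical
  letI : Algebra K B := ((algebraMap U B).comp (algebraMap K U)).toAlgebra
  haveI : IsScalarTower K U B := IsScalarTower.of_algebraMap_eq fun _ => rfl
  let ιK : F →ₐ[K] B := { d.ι with commutes' := fun a => d.ι_alg a }
  let jj : (U ⊗[K] F) →ₐ[U] B := Algebra.TensorProduct.lift (Algebra.ofId U B) ιK
    (fun _ _ => Commute.all _ _)
  have hjj : ∀ (u : U) (f : F), jj (u ⊗ₜ f) = algebraMap U B u * d.ι f := by
    intro u f
    rw [Algebra.TensorProduct.lift_tmul]
    rfl
  have hinj : Function.Injective jj := by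
    let e := Module.Free.chooseBasis K F
    let eT := Algebra.TensorProduct.basis U e
    have h1 : LinearIndependent U (fun i => jj (eT i)) := by
      have h2 := d.indep' e.linearIndependent
      convert h2 using 2 with i
      rw [Algebra.TensorProduct.basis_apply, hjj, map_one, one_mul]
    have h3 : LinearMap.ker (jj.toLinearMap) = ⊥ := by
      rw [LinearMap.ker_eq_bot']
      intro x hx
      have h4 := eT.linearCombination_repr x
      rw [← h4] at hx
      have h5 : Finsupp.linearCombination U (fun i => jj (eT i)) (eT.repr x) = 0 := by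
        rw [← hx, Finsupp.linearCombination_apply, Finsupp.linearCombination_apply,
          Finsupp.sum, Finsupp.sum, map_sum]
        refine Finset.sum_congr rfl fun i _ => ?_
        rw [map_smul]
        rfl
      have h6 : eT.repr x = 0 := (linearIndependent_iff.mp h1) _ h5
      rw [← h4, h6, map_zero]
    exact LinearMap.ker_eq_bot.mp h3
  haveI : IsDomain (U ⊗[K] F) := hinj.isDomain jj.toRingHom
  letI : Algebra (U ⊗[K] F) B := jj.toRingHom.toAlgebra
  haveI : IsFractionRing (U ⊗[K] F) B := by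
    have hspan : ∀ a ∈ d.A, ∃ t, jj t = a := by
      intro a ha
      refine Submodule.span_induction ?_ ?_ ?_ ?_ ha
      · rintro _ ⟨f, rfl⟩
        exact ⟨1 ⊗ₜ f, by rw [hjj, map_one, one_mul]⟩
      · exact ⟨0, map_zero _⟩
      · rintro x y _ _ ⟨t, rfl⟩ ⟨t', rfl⟩
        exact ⟨t + t', map_add _ _ _⟩
      · rintro c x _ ⟨t, rfl⟩
        exact ⟨c • t, map_smul _ _ _⟩
    haveI : FaithfulSMul (U ⊗[K] F) B := (faithfulSMul_iff_algebraMap_injective _ _).mpr hinj
    refine IsFractionRing.of_field _ _ fun z => ?_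
    obtain ⟨a, b, ha, hb, -, rfl⟩ := d.frac z
    obtain ⟨s, rfl⟩ := hspan a ha
    obtain ⟨t, rfl⟩ := hspan b hb
    exact ⟨s, t, rfl⟩
  let e : (U ⊗[K] F) ≃+* (U ⊗[K] F) :=
    (Algebra.TensorProduct.congr σ (AlgEquiv.refl : F ≃ₐ[K] F)).toRingEquiv
  have he : ∀ (u : U) (f : F), e (u ⊗ₜ f) = (σ u) ⊗ₜ f := fun u f => rfl
  let τ : B ≃+* B := IsFractionRing.ringEquivOfRingEquiv e
  have hτ : ∀ t : U ⊗[K] F, τ (jj t) = jj (e t) := fun t =>
    IsFractionRing.ringEquivOfRingEquiv_algebraMap e t
  refine ⟨τ, ?_, ?_⟩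
  · intro a
    have h1 := hτ (a ⊗ₜ 1)
    rwa [he, hjj, hjj, map_one, mul_one, mul_one] at h1
  · intro f
    have h1 := hτ (1 ⊗ₜ f)
    rwa [he, hjj, hjj, map_one, map_one, map_one, one_mul] at h1

/-- the semilinear action of `Aut (U / K)` on `B` -/
noncomputable def act : (U ≃ₐ[K] U) →* SemilinearAut U B where
  toFun σ := ⟨((d.exists_act σ).choose, σ.toRingEquiv), fun a =>
    (d.exists_act σ).choose_spec.1 a⟩
  map_one' := by
    apply Subtype.ext
    refine Prod.ext ?_ rfl
    have h : ((d.exists_act 1).choose : B →+* B) = RingHom.id B := by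
      refine d.hom_ext (fun a => ?_) (fun f => ?_)
      · exact (d.exists_act 1).choose_spec.1 a
      · exact (d.exists_act 1).choose_spec.2 f
    ext z
    exact congrArg (fun g : B →+* B => g z) h
  map_mul' σ τ := by
    apply Subtype.ext
    refine Prod.ext ?_ rfl
    have h : ((d.exists_act (σ * τ)).choose : B →+* B) =
        ((d.exists_act σ).choose : B →+* B).comp ((d.exists_act τ).choose : B →+* B) := by
      refine d.hom_ext (fun a => ?_) (fun f => ?_)
      · refine ((d.exists_act (σ * τ)).choose_spec.1 a).trans ?_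
        show _ = (d.exists_act σ).choose ((d.exists_act τ).choose _)
        rw [(d.exists_act τ).choose_spec.1 a, (d.exists_act σ).choose_spec.1]
        rfl
      · refine ((d.exists_act (σ * τ)).choose_spec.2 f).trans ?_
        show _ = (d.exists_act σ).choose ((d.exists_act τ).choose _)
        rw [(d.exists_act τ).choose_spec.2 f, (d.exists_act σ).choose_spec.2]
    ext z
    exact congrArg (fun g : B →+* B => g z) h

theorem act_algebraMap (σ : U ≃ₐ[K] U) (a : U) :
    d.act σ • algebraMap U B a = algebraMap U B (σ a) := (d.exists_act σ).choose_spec.1 a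

theorem act_ι (σ : U ≃ₐ[K] U) (f : F) : d.act σ • d.ι f = d.ι f :=
  (d.exists_act σ).choose_spec.2 f

theorem act_smul (σ : U ≃ₐ[K] U) (a : U) (z : B) :
    d.act σ • (a • z) = (σ a) • (d.act σ • z) := by
  rw [Algebra.smul_def, smul_mul', d.act_algebraMap, ← Algebra.smul_def]

theorem act_sum {ι' : Type*} (σ : U ≃ₐ[K] U) (s : Finset ι') (u : ι' → U) (e : ι' → F) :
    d.act σ • (∑ i ∈ s, u i • d.ι (e i)) = ∑ i ∈ s, σ (u i) • d.ι (e i) := by
  rw [Finset.smul_sum]
  exact Finset.sum_congr rfl fun i _ => by rw [d.act_smul, d.act_ι]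

theorem act_mem_A (σ : U ≃ₐ[K] U) {a : B} (ha : a ∈ d.A) : d.act σ • a ∈ d.A := by
  refine Submodule.span_induction (p := fun a _ => d.act σ • a ∈ d.A) ?_ ?_ ?_ ?_ ha
  · rintro _ ⟨f, rfl⟩
    rw [d.act_ι]
    exact d.ι_mem f
  · rw [smul_zero]
    exact zero_mem _
  · intro x y _ _ hx hy
    rw [smul_add]
    exact add_mem hx hy
  · intro c x _ hx
    rw [d.act_smul]
    exact Submodule.smul_mem _ _ hx

/-- a submodule stable under the action -/
def Stable (W : Submodule U B) : Prop := ∀ σ : U ≃ₐ[K] U, ∀ z ∈ W, d.act σ • z ∈ W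

variable [IsAlgClosed K] [IsAlgClosed U]

/-- a nonzero stable submodule of `U ⊗ C` meets `C` -/
theorem exists_mem_of_stable {W : Submodule U B} (hW : d.Stable W) (hW0 : W ≠ ⊥)
    (C : Submodule K F) (hWC : W ≤ Submodule.span U (d.ι '' (C : Set F))) :
    ∃ f ∈ C, f ≠ 0 ∧ d.ι f ∈ W := by
  classical
  -- a basis of `C`
  let e := Module.Free.chooseBasis K C
  have hind : LinearIndependent U (fun i => d.ι ((e i : C) : F)) :=
    d.indep' (e.linearIndependent.map' C.subtype (Submodule.ker_subtype C))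
  have hrep : ∀ w ∈ W, ∃ (s : Finset (Module.Free.ChooseBasisIndex K C))
      (u : Module.Free.ChooseBasisIndex K C → U), w = ∑ i ∈ s, u i • d.ι ((e i : C) : F) := by
    intro w hw
    have h1 : Submodule.span U (d.ι '' (C : Set F)) ≤
        Submodule.span U (Set.range fun i => d.ι ((e i : C) : F)) := by
      rw [Submodule.span_le]
      rintro _ ⟨c, hc, rfl⟩
      have h2 := e.linearCombination_repr ⟨c, hc⟩
      have h3 : c = ∑ i ∈ (e.repr ⟨c, hc⟩).support, (e.repr ⟨c, hc⟩) i • ((e i : C) : F) := by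
        have h4 := congrArg C.subtype h2
        rw [Finsupp.linearCombination_apply, Finsupp.sum, map_sum] at h4
        exact h4.symm
      rw [h3, map_sum]
      refine Submodule.sum_mem _ fun i _ => ?_
      rw [Algebra.smul_def, map_mul, d.ι_alg, ← Algebra.smul_def]
      exact Submodule.smul_mem _ _ (Submodule.subset_span ⟨i, rfl⟩)
    have h2 := h1 (hWC hw)
    rw [Finsupp.mem_span_range_iff_exists_finsupp] at h2
    obtain ⟨c, hc⟩ := h2
    exact ⟨c.support, c, hc.symm⟩
  -- minimal support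
  obtain ⟨w₀, hw₀, hw₀0⟩ := Submodule.exists_mem_ne_zero_of_ne_bot hW0
  have hex : ∃ n : ℕ, ∃ (s : Finset (Module.Free.ChooseBasisIndex K C))
      (u : Module.Free.ChooseBasisIndex K C → U), s.card = n ∧
      (∑ i ∈ s, u i • d.ι ((e i : C) : F)) ∈ W ∧ (∑ i ∈ s, u i • d.ι ((e i : C) : F)) ≠ 0 := by
    obtain ⟨s, u, h⟩ := hrep w₀ hw₀
    exact ⟨_, s, u, rfl, h ▸ hw₀, h ▸ hw₀0⟩
  obtain ⟨s, u, hcard, hmem, hne⟩ := Nat.find_spec hex
  have hmin := fun m (hm : m < Nat.find hex) => Nat.find_min hex hm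
  have hs : s.Nonempty := by
    rw [Finset.nonempty_iff_ne_empty]
    rintro rfl
    simp at hne
  obtain ⟨i₀, hi₀⟩ := hs
  have hu0 : u i₀ ≠ 0 := by
    intro h0
    refine hmin (s.erase i₀).card ?_ ⟨s.erase i₀, u, rfl, ?_, ?_⟩
    · rw [← hcard]
      exact Finset.card_erase_lt_of_mem hi₀
    all_goals
      rw [← Finset.sum_erase_add s _ hi₀, h0, zero_smul, add_zero] at hmem hne
      assumption
  -- normalise
  set u' : Module.Free.ChooseBasisIndex K C → U := fun i => (u i₀)⁻¹ * u i with hu'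
  have hsum' : ∑ i ∈ s, u' i • d.ι ((e i : C) : F) =
      (u i₀)⁻¹ • ∑ i ∈ s, u i • d.ι ((e i : C) : F) := by
    rw [Finset.smul_sum]
    exact Finset.sum_congr rfl fun i _ => by rw [hu', smul_smul]
  have hmem' : ∑ i ∈ s, u' i • d.ι ((e i : C) : F) ∈ W := by
    rw [hsum']
    exact Submodule.smul_mem _ _ hmem
  have hne' : ∑ i ∈ s, u' i • d.ι ((e i : C) : F) ≠ 0 := by
    rw [hsum']
    exact smul_ne_zero (inv_ne_zero hu0) hne
  have hu'1 : u' i₀ = 1 := inv_mul_cancel₀ hu0
  have hfix : ∀ (σ : U ≃ₐ[K] U), ∀ i ∈ s, σ (u' i) = u' i := by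
    intro σ
    have h1 : ∑ i ∈ s.erase i₀, (σ (u' i) - u' i) • d.ι ((e i : C) : F) =
        d.act σ • (∑ i ∈ s, u' i • d.ι ((e i : C) : F)) - ∑ i ∈ s, u' i • d.ι ((e i : C) : F) := by
      rw [d.act_sum, ← Finset.sum_sub_distrib, ← Finset.sum_erase_add s _ hi₀, hu'1, map_one,
        sub_self, add_zero]
      exact Finset.sum_congr rfl fun i _ => sub_smul _ _ _
    have h2 : ∑ i ∈ s.erase i₀, (σ (u' i) - u' i) • d.ι ((e i : C) : F) = 0 := by
      by_contra h3
      refine hmin (s.erase i₀).card ?_ ⟨s.erase i₀, _, rfl, ?_, h3⟩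
      · rw [← hcard]
        exact Finset.card_erase_lt_of_mem hi₀
      · rw [h1]
        exact sub_mem (hW σ _ hmem') hmem'
    intro i hi
    rcases eq_or_ne i i₀ with rfl | hii
    · rw [hu'1, map_one]
    · exact sub_eq_zero.mp ((linearIndependent_iff'.mp hind) (s.erase i₀) _ h2 i
        (Finset.mem_erase.mpr ⟨hii, hi⟩))
  have hK : ∀ i ∈ s, ∃ c : K, algebraMap K U c = u' i := by
    intro i hi
    apply mem_of_finite_orbit
    refine (Set.finite_singleton (u' i)).subset ?_
    rintro _ ⟨σ, rfl⟩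
    exact hfix σ i hi
  choose! c hc using hK
  refine ⟨∑ i ∈ s, c i • ((e i : C) : F), ?_, ?_, ?_⟩
  · exact Submodule.sum_mem _ fun i _ => Submodule.smul_mem _ _ (e i).2
  · intro h0
    apply hne'
    rw [← map_zero d.ι, ← h0, map_sum]
    exact Finset.sum_congr rfl fun i hi => by
      rw [Algebra.smul_def (c i), map_mul, d.ι_alg, ← Algebra.smul_def, hc i hi]
  · have h : d.ι (∑ i ∈ s, c i • ((e i : C) : F)) = ∑ i ∈ s, u' i • d.ι ((e i : C) : F) := by
      rw [map_sum]
      exact Finset.sum_congr rfl fun i hi => by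
        rw [Algebra.smul_def (c i), map_mul, d.ι_alg, ← Algebra.smul_def, hc i hi]
    rw [h]
    exact hmem'

/-- the rational elements of a subspace -/
def rat (W : Submodule U B) : Submodule K F where
  carrier := {f | d.ι f ∈ W}
  zero_mem' := by
    show d.ι 0 ∈ W
    rw [map_zero]
    exact zero_mem _
  add_mem' {f g} hf hg := by
    show d.ι (f + g) ∈ W
    rw [map_add]
    exact add_mem hf hg
  smul_mem' c f hf := by
    show d.ι (c • f) ∈ W
    rw [Algebra.smul_def, map_mul, d.ι_alg, ← Algebra.smul_def]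
    exact Submodule.smul_mem _ _ hf

omit [IsAlgClosed K] [IsAlgClosed U] in
theorem mem_rat {W : Submodule U B} {f : F} : f ∈ d.rat W ↔ d.ι f ∈ W := Iff.rfl

/-- descent inside `A` -/
theorem descent_A {W : Submodule U B} (hW : d.Stable W) (hWA : W ≤ d.A) :
    W = Submodule.span U (d.ι '' (d.rat W : Set F)) := by
  apply le_antisymm
  · obtain ⟨C, hC⟩ := Submodule.exists_isCompl (d.rat W)
    have hle : d.A ≤ Submodule.span U (d.ι '' (d.rat W : Set F)) ⊔
        Submodule.span U (d.ι '' (C : Set F)) := by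
      rw [A, Submodule.span_le]
      rintro _ ⟨f, rfl⟩
      have hf : f ∈ d.rat W ⊔ C := by
        rw [hC.sup_eq_top]
        trivial
      obtain ⟨x, hx, y, hy, rfl⟩ := Submodule.mem_sup.mp hf
      rw [map_add]
      exact add_mem (Submodule.mem_sup_left (Submodule.subset_span ⟨x, hx, rfl⟩))
        (Submodule.mem_sup_right (Submodule.subset_span ⟨y, hy, rfl⟩))
    have hbot : W ⊓ Submodule.span U (d.ι '' (C : Set F)) = ⊥ := by
      by_contra hne
      have hst : d.Stable (W ⊓ Submodule.span U (d.ι '' (C : Set F))) := by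
        intro σ z hz
        refine ⟨hW σ z hz.1, ?_⟩
        have h1 := hz.2
        refine Submodule.span_induction
          (p := fun a _ => d.act σ • a ∈ Submodule.span U (d.ι '' (C : Set F))) ?_ ?_ ?_ ?_ h1
        · rintro _ ⟨f, hf, rfl⟩
          rw [d.act_ι]
          exact Submodule.subset_span ⟨f, hf, rfl⟩
        · rw [smul_zero]
          exact zero_mem _
        · intro x y _ _ hx hy
          rw [smul_add]
          exact add_mem hx hy
        · intro c x _ hx
          rw [d.act_smul]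
          exact Submodule.smul_mem _ _ hx
      obtain ⟨f, hfC, hf0, hfW⟩ := d.exists_mem_of_stable hst hne C inf_le_right
      apply hf0
      have : f ∈ d.rat W ⊓ C := ⟨hfW.1, hfC⟩
      rwa [hC.inf_eq_bot, Submodule.mem_bot] at this
    intro w hw
    obtain ⟨x, hx, y, hy, rfl⟩ := Submodule.mem_sup.mp (hle (hWA hw))
    have hxW : x ∈ W := by
      refine (Submodule.span_le.mpr ?_) hx
      rintro _ ⟨f, hf, rfl⟩
      exact hf
    have hy0 : y ∈ W ⊓ Submodule.span U (d.ι '' (C : Set F)) := by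
      refine ⟨?_, hy⟩
      have := sub_mem hw hxW
      rwa [add_sub_cancel_left] at this
    rw [hbot, Submodule.mem_bot] at hy0
    rw [hy0, add_zero]
    exact hx
  · rw [Submodule.span_le]
    rintro _ ⟨f, hf, rfl⟩
    exact hf

/-- descent of finite-dimensional stable subspaces -/
theorem descent {W : Submodule U B} [FiniteDimensional U W] (hW : d.Stable W) :
    W = Submodule.span U (d.ι '' (d.rat W : Set F)) := by
  classical
  -- denominators
  let I : Submodule U B :=
    { carrier := {b | b ∈ d.A ∧ ∀ w ∈ W, b * w ∈ d.A}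
      zero_mem' := ⟨zero_mem _, fun w _ => by rw [zero_mul]; exact zero_mem _⟩
      add_mem' := fun {a b} ha hb => ⟨add_mem ha.1 hb.1, fun w hw => by
        rw [add_mul]
        exact add_mem (ha.2 w hw) (hb.2 w hw)⟩
      smul_mem' := fun c a ha => ⟨Submodule.smul_mem _ _ ha.1, fun w hw => by
        rw [smul_mul_assoc]
        exact Submodule.smul_mem _ _ (ha.2 w hw)⟩ }
  have hIst : d.Stable I := by
    rintro σ b ⟨hb1, hb2⟩
    refine ⟨d.act_mem_A σ hb1, fun w hw => ?_⟩
    have h1 : d.act σ⁻¹ • w ∈ W := hW σ⁻¹ w hw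
    have h2 := d.act_mem_A σ (hb2 _ h1)
    rwa [smul_mul', ← mul_smul, ← map_mul, mul_inv_cancel, map_one, one_smul] at h2
  have hI0 : I ≠ ⊥ := by
    let bs := Module.finBasis U W
    have h1 : ∀ i, ∃ b : B, b ∈ d.A ∧ b ≠ 0 ∧ b * (bs i : B) ∈ d.A := by
      intro i
      obtain ⟨a, b, ha, hb, hb0, h⟩ := d.frac (bs i : B)
      exact ⟨b, hb, hb0, by rw [h, mul_div_cancel₀ _ hb0]; exact ha⟩
    choose b hb1 hb2 hb3 using h1
    rw [Submodule.ne_bot_iff]
    refine ⟨∏ i, b i, ⟨d.prod_mem _ _ fun i _ => hb1 i, fun w hw => ?_⟩,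
      Finset.prod_ne_zero_iff.mpr fun i _ => hb2 i⟩
    have h2 := bs.sum_repr ⟨w, hw⟩
    have h3 : w = ∑ i, (bs.repr ⟨w, hw⟩) i • (bs i : B) := by
      have := congrArg W.subtype h2
      rw [map_sum] at this
      exact this.symm
    rw [h3, Finset.mul_sum]
    refine Submodule.sum_mem _ fun i _ => ?_
    rw [mul_smul_comm]
    refine Submodule.smul_mem _ _ ?_
    rw [← Finset.prod_erase_mul _ _ (Finset.mem_univ i), mul_assoc]
    exact d.mul_mem (d.prod_mem _ _ fun i _ => hb1 i) (hb3 i)
  obtain ⟨g, -, hg0, hgI⟩ := d.exists_mem_of_stable hIst hI0 ⊤ (fun b hb => by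
    refine (Submodule.span_mono ?_) hb.1
    rintro _ ⟨f, rfl⟩
    exact ⟨f, trivial, rfl⟩)
  have hιg : d.ι g ≠ 0 := (map_ne_zero_iff _ d.ι.injective).mpr hg0
  -- multiply by `g`
  let W' : Submodule U B := W.map (LinearMap.mulLeft U (d.ι g))
  have hW'A : W' ≤ d.A := by
    rintro _ ⟨w, hw, rfl⟩
    exact hgI.2 w hw
  have hW'st : d.Stable W' := by
    rintro σ _ ⟨w, hw, rfl⟩
    refine ⟨d.act σ • w, hW σ w hw, ?_⟩
    rw [LinearMap.mulLeft_apply, LinearMap.mulLeft_apply, smul_mul', d.act_ι]
  have hdesc := d.descent_A hW'st hW'A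
  apply le_antisymm
  · intro w hw
    have h1 : d.ι g * w ∈ W' := ⟨w, hw, rfl⟩
    rw [hdesc] at h1
    have h2 : ∀ a ∈ Submodule.span U (d.ι '' (d.rat W' : Set F)),
        (d.ι g)⁻¹ * a ∈ Submodule.span U (d.ι '' (d.rat W : Set F)) := by
      intro a ha
      refine Submodule.span_induction (p := fun a _ => (d.ι g)⁻¹ * a ∈
        Submodule.span U (d.ι '' (d.rat W : Set F))) ?_ ?_ ?_ ?_ ha
      · rintro _ ⟨f, hf, rfl⟩
        refine Submodule.subset_span ⟨g⁻¹ * f, ?_, by rw [map_mul, map_inv₀]⟩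
        obtain ⟨w', hw', hw'2⟩ := hf
        rw [LinearMap.mulLeft_apply] at hw'2
        show d.ι (g⁻¹ * f) ∈ W
        rw [map_mul, map_inv₀, ← hw'2, inv_mul_cancel_left₀ hιg]
        exact hw'
      · rw [mul_zero]
        exact zero_mem _
      · intro x y _ _ hx hy
        rw [mul_add]
        exact add_mem hx hy
      · intro c x _ hx
        rw [mul_smul_comm]
        exact Submodule.smul_mem _ _ hx
    have h3 := h2 _ h1
    rwa [inv_mul_cancel_left₀ hιg] at h3
  · rw [Submodule.span_le]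
    rintro _ ⟨f, hf, rfl⟩
    exact hf

/-- dimensions agree -/
theorem finrank_rat {W : Submodule U B} [FiniteDimensional U W] (hW : d.Stable W) :
    finrank K (d.rat W) = finrank U W := by
  classical
  let e := Module.Free.chooseBasis K (d.rat W)
  have hind : LinearIndependent U (fun i => d.ι ((e i : d.rat W) : F)) :=
    d.indep' (e.linearIndependent.map' (d.rat W).subtype (Submodule.ker_subtype _))
  have hind' : LinearIndependent U (fun i => (⟨d.ι ((e i : d.rat W) : F), (e i).2⟩ : W)) := by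
    refine LinearIndependent.of_comp W.subtype ?_
    exact hind
  have hspan : ⊤ ≤ Submodule.span U (Set.range
      (fun i => (⟨d.ι ((e i : d.rat W) : F), (e i).2⟩ : W))) := by
    have h1 : W ≤ (Submodule.span U (Set.range
        (fun i => (⟨d.ι ((e i : d.rat W) : F), (e i).2⟩ : W)))).map W.subtype := by
      conv_lhs => rw [d.descent hW]
      rw [Submodule.span_le]
      rintro _ ⟨f, hf, rfl⟩
      have h2 := e.linearCombination_repr ⟨f, hf⟩
      have h3 : f = ∑ i ∈ (e.repr ⟨f, hf⟩).support, (e.repr ⟨f, hf⟩) i • ((e i : d.rat W) : F) := by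
        have h4 := congrArg (d.rat W).subtype h2
        rw [Finsupp.linearCombination_apply, Finsupp.sum, map_sum] at h4
        exact h4.symm
      rw [h3, map_sum]
      refine Submodule.sum_mem _ fun i _ => ?_
      rw [Algebra.smul_def, map_mul, d.ι_alg, ← Algebra.smul_def]
      refine Submodule.smul_mem _ _ ?_
      exact ⟨_, Submodule.subset_span ⟨i, rfl⟩, rfl⟩
    rintro ⟨w, hw⟩ -
    obtain ⟨w', hw', hw'2⟩ := h1 hw
    have : (⟨w, hw⟩ : W) = w' := Subtype.ext hw'2.symm
    rw [this]
    exact hw'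
  let bW : Basis (Module.Free.ChooseBasisIndex K (d.rat W)) U W := Basis.mk hind' hspan
  rw [Module.finrank_eq_nat_card_basis bW, Module.finrank_eq_nat_card_basis e]

end Ext

end Fermat.Agent.BCh
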