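import Fermat.Agent.BCh.Places

/-! Divisors, genus and divisor classes under extension of the constant field. -/

set_option autoImplicit false
set_option linter.style.haveILetI false
set_option linter.unusedSectionVars false

open AlgebraicCurve Module Fermat.Agent.RRC Fermat.Agent.Zeta Fermat.Agent.Ultra

namespace Fermat.Agent.BCh

/-- effective divisors in a class of dimension one are unique -/
theorem eff_unique {K F : Type*} [Field K] [Field F] [Algebra K F] [HasPrincipalDivisors K F]
    {D E E' : Divisor K F} (h : finrank K (riemannRochSpace D) = 1) (hE : 0 ≤ E) (hE' : 0 ≤ E')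
    (h1 : Divisor.IsPrincipal (E - D)) (h2 : Divisor.IsPrincipal (E' - D)) : E = E' := by
  obtain ⟨f, hf, hfd⟩ := isPrincipal_iff.mp h1
  obtain ⟨g, hg, hgd⟩ := isPrincipal_iff.mp h2
  have hfL : f ∈ riemannRochSpace D := by
    rw [mem_L_iff hf, ← hfd, sub_add_cancel]
    exact hE
  have hgL : g ∈ riemannRochSpace D := by
    rw [mem_L_iff hg, ← hgd, sub_add_cancel]
    exact hE'
  obtain ⟨c, hc⟩ := exists_smul_eq_of_finrank_eq_one h
    (x := (⟨f, hfL⟩ : riemannRochSpace D)) (fun h0 => hf (congrArg Subtype.val h0)) ⟨g, hgL⟩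
  have hc' : c • f = g := congrArg Subtype.val hc
  have hc0 : c ≠ 0 := by
    rintro rfl
    rw [zero_smul] at hc'
    exact hg hc'.symm
  have h3 : div K g = div K f := by
    rw [← hc', Algebra.smul_def, RRC.div_mul (by simpa using hc0) hf, RRC.div_algebraMap, zero_add]
  rw [h3, ← hfd] at hgd
  exact (sub_left_injective hgd).symm

variable {K F U B : Type*} [Field K] [Field F] [Field U] [Field B] [Algebra K F] [Algebra K U]
    [Algebra U B]

namespace Ext

variable (d : Ext K F U B) [FF K F] [FF U B] [IsAlgClosed K] [IsAlgClosed U]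
  [Fermat.Agent.FF.IsFnField K F] [CharZero K]

/-- lift of divisors -/
noncomputable def lift : Divisor K F →+ Divisor U B := Finsupp.mapDomain.addMonoidHom d.up

theorem lift_single (P : Place K F) (n : ℤ) :
    d.lift (Finsupp.single P n) = Finsupp.single (d.up P) n := Finsupp.mapDomain_single

theorem lift_up (D : Divisor K F) (P : Place K F) : d.lift D (d.up P) = D P :=
  Finsupp.mapDomain_apply d.up_injective D P

theorem lift_of_ne (D : Divisor K F) {Q : Place U B} (h : ∀ P, Q ≠ d.up P) : d.lift D Q = 0 :=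
  Finsupp.mapDomain_of_notMem_range D Q (fun ⟨P, hP⟩ => h P hP.symm)

theorem degree_lift (D : Divisor K F) : Divisor.degree (d.lift D) = Divisor.degree D := by
  have : (Divisor.degree (K := U) (F := B)).comp d.lift = Divisor.degree (K := K) (F := F) := by
    refine Finsupp.addHom_ext fun P n => ?_
    rw [AddMonoidHom.comp_apply, lift_single, degree_single', degree_single']
  exact DFunLike.congr_fun this D

theorem act_lift (σ : U ≃ₐ[K] U) (D : Divisor K F) : d.act σ • d.lift D = d.lift D := by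
  have : (DistribSMul.toAddMonoidHom (Divisor U B) (d.act σ)).comp d.lift = d.lift := by
    refine Finsupp.addHom_ext fun P n => ?_
    rw [AddMonoidHom.comp_apply, lift_single]
    show d.act σ • (Finsupp.single (d.up P) n : Divisor U B) = _
    rw [SemilinearAut.smul_single, d.act_up]
  exact DFunLike.congr_fun this D

theorem div_ι {f : F} (hf : f ≠ 0) : div U (d.ι f) = d.lift (div K f) := by
  have hιf : d.ι f ≠ 0 := (map_ne_zero_iff _ d.ι.injective).mpr hf
  ext Q
  rw [div_apply hιf]
  by_cases h : ∃ P, Q = d.up P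
  · obtain ⟨P, rfl⟩ := h
    rw [d.lift_up, div_apply hf, d.ord_up]
  · rw [d.lift_of_ne _ (fun P hP => h ⟨P, hP⟩)]
    by_contra hne
    exact h (d.eq_up_of_ord_ne_zero hne)

theorem lift_nonneg_iff (D : Divisor K F) : 0 ≤ d.lift D ↔ 0 ≤ D := by
  constructor
  · intro h P
    have := h (d.up P)
    rwa [d.lift_up] at this
  · intro h Q
    by_cases hQ : ∃ P, Q = d.up P
    · obtain ⟨P, rfl⟩ := hQ
      rw [d.lift_up]
      exact h P
    · rw [d.lift_of_ne _ (fun P hP => hQ ⟨P, hP⟩)]
      rfl

theorem lift_injective : Function.Injective d.lift := Finsupp.mapDomain_injective d.up_injective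

theorem rat_L (D : Divisor K F) : d.rat (riemannRochSpace (d.lift D)) = riemannRochSpace D := by
  ext f
  rw [mem_rat]
  rcases eq_or_ne f 0 with rfl | hf
  · simp
  have hιf : d.ι f ≠ 0 := (map_ne_zero_iff _ d.ι.injective).mpr hf
  rw [mem_L_iff hf, mem_L_iff hιf, d.div_ι hf, ← map_add, d.lift_nonneg_iff]

theorem finrank_lift (D : Divisor K F) :
    finrank U (riemannRochSpace (d.lift D)) = finrank K (riemannRochSpace D) := by
  rw [← d.finrank_rat (d.stable_L (fun σ => d.act_lift σ D)), d.rat_L]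

include d in
theorem genus_eq : genusFF K F = genusFF U B := by
  obtain ⟨P⟩ : Nonempty (Place K F) := inferInstance
  set D : Divisor K F := Finsupp.single P (2 * (genusFF K F + genusFF U B : ℤ)) with hD
  have h1 := finrank_L_of_large (D := D) (by rw [hD, degree_single']; omega)
  have h2 := finrank_L_of_large (D := d.lift D) (by
    rw [d.degree_lift, hD, degree_single']; omega)
  rw [d.finrank_lift, d.degree_lift] at h2
  omega

theorem isPrincipal_lift_iff {D : Divisor K F} :
    Divisor.IsPrincipal (d.lift D) ↔ Divisor.IsPrincipal D := by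
  constructor
  · intro h
    obtain ⟨z, hz, hzD⟩ := isPrincipal_iff.mp h
    have hdeg : Divisor.degree D = 0 := by
      rw [← d.degree_lift, hzD, degree_div]
    have h1 : z ∈ riemannRochSpace (d.lift (-D)) := by
      rw [mem_L_iff hz, map_neg, hzD, add_neg_cancel]
    have h2 : riemannRochSpace (-D) ≠ ⊥ := by
      intro hbot
      have h3 := d.finrank_lift (-D)
      rw [hbot, finrank_bot] at h3
      have h4 : riemannRochSpace (d.lift (-D)) = ⊥ := Submodule.finrank_eq_zero.mp h3
      rw [h4, Submodule.mem_bot] at h1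
      exact hz h1
    obtain ⟨f, hf, hf0⟩ := Submodule.exists_mem_ne_zero_of_ne_bot h2
    rw [mem_L_iff hf0] at hf
    have h3 : D = div K f := by
      refine eq_of_le_of_degree_eq ?_ ?_
      · rwa [← sub_eq_add_neg, sub_nonneg] at hf
      · rw [hdeg, degree_div]
    rw [h3]
    exact isPrincipal_div hf0
  · intro h
    obtain ⟨f, hf, rfl⟩ := isPrincipal_iff.mp h
    rw [← d.div_ι hf]
    exact isPrincipal_div ((map_ne_zero_iff _ d.ι.injective).mpr hf)

/-- effective divisors with finite orbit come from `F` -/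
theorem exists_lift_eq_of_finite_orbit {E : Divisor U B}
    (hfin : (Set.range fun σ : U ≃ₐ[K] U => d.act σ • E).Finite) : ∃ E₀, E = d.lift E₀ := by
  classical
  have h1 : ∀ Q, E Q ≠ 0 → ∃ P, Q = d.up P := by
    intro Q hQ
    apply d.eq_up_of_finite_orbit
    refine (hfin.biUnion (t := fun E' : Divisor U B => {Q' | E' Q' ≠ 0}) (fun E' _ => ?_)).subset ?_
    · refine E'.support.finite_toSet.subset fun Q' hQ' => ?_
      simpa using hQ'
    · rintro _ ⟨σ, rfl⟩
      refine Set.mem_biUnion ⟨σ, rfl⟩ ?_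
      show (d.act σ • E) (d.act σ • Q) ≠ 0
      rwa [SemilinearAut.divisor_smul_apply_smul]
  refine ⟨Finsupp.comapDomain d.up E (d.up_injective.injOn), ?_⟩
  ext Q
  by_cases hQ : ∃ P, Q = d.up P
  · obtain ⟨P, rfl⟩ := hQ
    rw [d.lift_up]
    rfl
  · rw [d.lift_of_ne _ (fun P hP => hQ ⟨P, hP⟩)]
    by_contra hne
    exact hQ (h1 Q hne)

omit [IsAlgClosed K] [IsAlgClosed U] [Fermat.Agent.FF.IsFnField K F] [CharZero K] [FF K F] in
theorem exists_dim_one (D : Divisor U B) (Q : Place U B) :
    ∃ m : ℤ, finrank U (riemannRochSpace (D + Finsupp.single Q m)) = 1 := by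
  classical
  let a : ℕ → ℕ := fun k =>
    finrank U (riemannRochSpace (D + Finsupp.single Q (-Divisor.degree D - 1 + k)))
  have ha0 : a 0 = 0 := by
    have : riemannRochSpace (D + Finsupp.single Q (-Divisor.degree D - 1 + (0 : ℕ))) = ⊥ :=
      L_eq_bot (by rw [map_add, degree_single']; push_cast; omega)
    show finrank U (riemannRochSpace (D + Finsupp.single Q (-Divisor.degree D - 1 + (0 : ℕ)))) = 0
    rw [this, finrank_bot]
  have hex : ∃ k, a k ≠ 0 := by
    refine ⟨genusFF U B + 1, ?_⟩
    have h1 := riemann_inequality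
      (D + Finsupp.single Q (-Divisor.degree D - 1 + ((genusFF U B + 1 : ℕ) : ℤ)))
    rw [map_add, degree_single'] at h1
    intro h0
    have h2 : (a (genusFF U B + 1) : ℤ) = finrank U (riemannRochSpace
      (D + Finsupp.single Q (-Divisor.degree D - 1 + ((genusFF U B + 1 : ℕ) : ℤ)))) := rfl
    rw [h0] at h2
    push_cast at h1 h2
    omega
  obtain ⟨k, hk⟩ : ∃ k, Nat.find hex = k + 1 := by
    refine ⟨Nat.find hex - 1, ?_⟩
    have : Nat.find hex ≠ 0 := by
      intro h
      have := Nat.find_spec hex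
      rw [h] at this
      exact this ha0
    omega
  have h1 := Nat.find_spec hex
  rw [hk] at h1
  have h2 : a k = 0 := by
    by_contra h
    exact Nat.find_min hex (by omega) h
  refine ⟨-Divisor.degree D - 1 + ((k + 1 : ℕ) : ℤ), ?_⟩
  have h3 : a (k + 1) ≤ a k + 1 := by
    have e : D + Finsupp.single Q (-Divisor.degree D - 1 + ((k + 1 : ℕ) : ℤ)) =
        D + Finsupp.single Q (-Divisor.degree D - 1 + (k : ℤ)) + Finsupp.single Q (1 : ℤ) := by
      rw [add_assoc, ← Finsupp.single_add]
      push_cast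
      ring_nf
    show finrank U (riemannRochSpace
      (D + Finsupp.single Q (-Divisor.degree D - 1 + ((k + 1 : ℕ) : ℤ)))) ≤ _
    rw [e]
    exact finrank_L_le_step _ _
  have h4 : a (k + 1) = 1 := by omega
  exact h4

/-- classes with finite orbit come from `F` -/
theorem exists_lift_of_finite (D : Divisor U B) (T : Set (Divisor U B)) (hT : T.Finite)
    (h : ∀ σ : U ≃ₐ[K] U, ∃ E ∈ T, Divisor.IsPrincipal (d.act σ • D - E)) :
    ∃ D₀ : Divisor K F, Divisor.IsPrincipal (D - d.lift D₀) := by
  classical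
  obtain ⟨P⟩ : Nonempty (Place K F) := inferInstance
  obtain ⟨m, hm⟩ := exists_dim_one D (d.up P)
  set D' := D + Finsupp.single (d.up P) m with hD'
  obtain ⟨f, hfL, hf0⟩ := Submodule.exists_mem_ne_zero_of_ne_bot
    (p := riemannRochSpace D') (by
      intro h0
      rw [h0, finrank_bot] at hm
      exact zero_ne_one hm)
  set E : Divisor U B := div U f + D' with hE
  have hE0 : 0 ≤ E := (mem_L_iff hf0).mp hfL
  have hED : Divisor.IsPrincipal (E - D') := by
    rw [hE, add_sub_cancel_right]
    exact isPrincipal_div hf0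
  have hact : ∀ (σ : U ≃ₐ[K] U) (X : Divisor U B), Divisor.IsPrincipal X →
      Divisor.IsPrincipal (d.act σ • X) := fun σ X hX => SemilinearAut.smul_mem_principal _ hX
  have hD's : ∀ σ : U ≃ₐ[K] U, d.act σ • D' = d.act σ • D + Finsupp.single (d.up P) m := by
    intro σ
    rw [hD', smul_add, SemilinearAut.smul_single, d.act_up]
  have hsame : ∀ σ τ : U ≃ₐ[K] U, Divisor.IsPrincipal (d.act σ • D - d.act τ • D) →
      d.act σ • E = d.act τ • E := by
    intro σ τ hστ
    refine eff_unique (D := d.act σ • D') ?_ ?_ ?_ ?_ ?_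
    · rw [finrank_L_smul, hm]
    · have := (le_smul_iff (d.act σ) (D := 0) (E := E)).mpr hE0
      rwa [smul_zero] at this
    · have := (le_smul_iff (d.act τ) (D := 0) (E := E)).mpr hE0
      rwa [smul_zero] at this
    · rw [← smul_sub]
      exact hact σ _ hED
    · have h1 := hact τ _ hED
      have h2 : d.act τ • E - d.act σ • D' =
          d.act τ • (E - D') - (d.act σ • D - d.act τ • D) := by
        rw [hD's, smul_sub, hD's]
        abel
      rw [h2]
      exact (Divisor.principal (K := U) (F := B)).sub_mem h1 hστ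
  have hfin : (Set.range fun σ : U ≃ₐ[K] U => d.act σ • E).Finite := by
    choose t ht1 ht2 using h
    -- choose a section
    have hsec : ∀ σ τ : U ≃ₐ[K] U, t σ = t τ → d.act σ • E = d.act τ • E := by
      intro σ τ hst
      apply hsame
      have h2 : d.act σ • D - d.act τ • D = (d.act σ • D - t σ) - (d.act τ • D - t τ) := by
        rw [hst]; abel
      rw [h2]
      exact (Divisor.principal (K := U) (F := B)).sub_mem (ht2 σ) (ht2 τ)
    have hfac : ∃ r : Divisor U B → Divisor U B, ∀ σ, d.act σ • E = r (t σ) := by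
      refine ⟨fun x => if hx : ∃ σ, t σ = x then d.act hx.choose • E else 0, fun σ => ?_⟩
      have hx : ∃ σ', t σ' = t σ := ⟨σ, rfl⟩
      simp only [dif_pos hx]
      exact hsec _ _ hx.choose_spec.symm
    obtain ⟨r, hr⟩ := hfac
    refine (hT.image r).subset ?_
    rintro _ ⟨σ, rfl⟩
    exact ⟨t σ, ht1 σ, (hr σ).symm⟩
  obtain ⟨E₀, hE₀⟩ := d.exists_lift_eq_of_finite_orbit hfin
  refine ⟨E₀ - Finsupp.single P m, ?_⟩
  have h3 : D - d.lift (E₀ - Finsupp.single P m) = -(E - D') := by
    rw [map_sub, d.lift_single, ← hE₀, hD']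
    abel
  rw [h3]
  exact (Divisor.principal (K := U) (F := B)).neg_mem hED

/-- lift of divisors of degree zero -/
noncomputable def liftZero : Divisor.degZero (K := K) (F := F) →+ Divisor.degZero (K := U) (F := B) :=
  (d.lift.comp (Divisor.degZero (K := K) (F := F)).subtype).codRestrict _ (fun D => by
    rw [Divisor.mem_degZero, AddMonoidHom.comp_apply, d.degree_lift]
    exact D.2)

/-- lift of divisor classes -/
noncomputable def pic : Pic0 K F →+ Pic0 U B :=
  QuotientAddGroup.map _ _ d.liftZero (by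
    rintro ⟨D, hD0⟩ hD
    rw [AddSubgroup.mem_addSubgroupOf] at hD
    rw [AddSubgroup.mem_comap, AddSubgroup.mem_addSubgroupOf]
    exact d.isPrincipal_lift_iff.mpr hD)

theorem pic_mk (D : Divisor.degZero (K := K) (F := F)) :
    d.pic (Pic0.mk D) = Pic0.mk (d.liftZero D) := rfl

theorem pic_injective : Function.Injective d.pic := by
  rw [injective_iff_map_eq_zero]
  intro c hc
  obtain ⟨D, rfl⟩ := Pic0.mk_surjective c
  rw [d.pic_mk, ← Pic0.mk_zero, mk_eq_mk_iff] at hc
  rw [← Pic0.mk_zero, mk_eq_mk_iff]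
  simp only [AddSubgroup.coe_zero, sub_zero] at hc ⊢
  exact d.isPrincipal_lift_iff.mp hc

theorem mem_range_pic {c : Pic0 U B} (hfin : (Set.range fun σ : U ≃ₐ[K] U => d.act σ • c).Finite) :
    ∃ c₀, d.pic c₀ = c := by
  obtain ⟨D, rfl⟩ := Pic0.mk_surjective c
  choose r hr using Pic0.mk_surjective (K := U) (F := B)
  obtain ⟨D₀, hD₀⟩ := d.exists_lift_of_finite (D : Divisor U B)
    ((fun x => (r x : Divisor U B)) '' (Set.range fun σ : U ≃ₐ[K] U => d.act σ • Pic0.mk D))
    (hfin.image _) (fun σ => by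
      refine ⟨_, ⟨d.act σ • Pic0.mk D, ⟨σ, rfl⟩, rfl⟩, ?_⟩
      have h1 := hr (d.act σ • Pic0.mk D)
      rw [SemilinearAut.pic0_smul_mk] at h1
      have h2 := mk_eq_mk_iff.mp h1.symm
      rw [SemilinearAut.coe_degZeroSMulHom] at h2
      rw [SemilinearAut.pic0_smul_mk]
      exact h2)
  have hdeg : Divisor.degree D₀ = 0 := by
    obtain ⟨f, hf, h⟩ := isPrincipal_iff.mp hD₀
    have h1 := congrArg Divisor.degree h
    have h2 : Divisor.degree (D : Divisor U B) = 0 := D.2
    rw [degree_div, map_sub, d.degree_lift, h2] at h1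
    omega
  refine ⟨Pic0.mk ⟨D₀, hdeg⟩, ?_⟩
  rw [d.pic_mk, eq_comm, mk_eq_mk_iff]
  exact hD₀

theorem exists_pic_of_torsion {n : ℕ} [Finite (Pic0.torsion U B n)] {c c' : Pic0 U B}
    (hc : n • c = c') (hc' : ∀ σ : U ≃ₐ[K] U, d.act σ • c' = c') : ∃ c₀, d.pic c₀ = c := by
  apply d.mem_range_pic
  have h1 : (Set.range fun t : Pic0.torsion U B n => c + t).Finite := Set.finite_range _
  refine h1.subset ?_
  rintro _ ⟨σ, rfl⟩
  have h2 : d.act σ • c - c ∈ Pic0.torsion U B n := by
    rw [Pic0.mem_torsion, zsmul_sub, ← SemilinearAut.smul_zsmul, natCast_zsmul, hc, hc', sub_self]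
  exact ⟨⟨_, h2⟩, by simp⟩

include d in
/-- **invariance of the torsion** -/
theorem card_torsion (n : ℕ) [Finite (Pic0.torsion U B n)] :
    Nat.card (Pic0.torsion K F n) = Nat.card (Pic0.torsion U B n) := by
  refine Nat.card_congr (Equiv.ofBijective
    (fun c : Pic0.torsion K F n => (⟨d.pic c, by
      have := c.2
      rw [Pic0.mem_torsion] at this ⊢
      rw [← map_zsmul, this, map_zero]⟩ : Pic0.torsion U B n)) ⟨?_, ?_⟩)
  · intro c c' h
    exact Subtype.ext (d.pic_injective (congrArg Subtype.val h))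
  · rintro ⟨c, hc⟩
    have hc' := hc
    rw [Pic0.mem_torsion, natCast_zsmul] at hc'
    obtain ⟨c₀, rfl⟩ := d.exists_pic_of_torsion hc' (fun σ => by
      have := SemilinearAut.smul_zsmul (d.act σ) 0 (0 : Pic0 U B)
      rwa [zero_zsmul, zero_zsmul] at this)
    refine ⟨⟨c₀, ?_⟩, rfl⟩
    rw [Pic0.mem_torsion, natCast_zsmul]
    apply d.pic_injective
    rw [map_nsmul, hc', map_zero]

theorem act_pic (σ : U ≃ₐ[K] U) (c : Pic0 K F) : d.act σ • d.pic c = d.pic c := by
  obtain ⟨D, rfl⟩ := Pic0.mk_surjective c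
  rw [d.pic_mk, SemilinearAut.pic0_smul_mk]
  congr 1
  apply Subtype.ext
  rw [SemilinearAut.coe_degZeroSMulHom]
  exact d.act_lift σ _

include d in
/-- **invariance of divisibility** -/
theorem divisible (n : ℕ) [Finite (Pic0.torsion U B n)] (h : ∀ c : Pic0 U B, ∃ c', n • c' = c)
    (c : Pic0 K F) : ∃ c', n • c' = c := by
  obtain ⟨c', hc'⟩ := h (d.pic c)
  obtain ⟨c₀, rfl⟩ := d.exists_pic_of_torsion hc' (fun σ => d.act_pic σ c)
  exact ⟨c₀, d.pic_injective (by rw [map_nsmul, hc'])⟩

end Ext

end Fermat.Agent.BCh
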