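import Mathlib

/-! Automorphisms of algebraically closed fields. -/

set_option autoImplicit false

open MvPolynomial IntermediateField

namespace Fermat.Agent.BCh

/-- translation automorphism of a polynomial ring -/
noncomputable def transl {K ι : Type*} [CommRing K] (c : ι → K) :
    MvPolynomial ι K ≃ₐ[K] MvPolynomial ι K :=
  AlgEquiv.ofAlgHom (aeval fun i => X i + C (c i)) (aeval fun i => X i - C (c i))
    (by
      ext i
      simp [algebraMap_eq])
    (by
      ext i
      simp [algebraMap_eq])

theorem transl_X {K ι : Type*} [CommRing K] (c : ι → K) (i : ι) :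
    transl c (X i) = X i + C (c i) := by
  simp [transl]

variable {K U : Type*} [Field K] [Field U] [Algebra K U] [IsAlgClosed K] [IsAlgClosed U]

omit [IsAlgClosed K] in
/-- there are automorphisms translating a given transcendental element by constants -/
theorem exists_aut_add {a : U} (ha : Transcendental K a) (c : K) :
    ∃ σ : U ≃ₐ[K] U, σ a = a + algebraMap K U c := by
  classical
  have hind : AlgebraicIndepOn K id ({a} : Set U) := by
    have : AlgebraicIndependent K (fun _ : Unit => a) :=
      algebraicIndependent_unique_type_iff.mpr ha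
    rw [AlgebraicIndepOn]
    exact algebraicIndependent_unique_type_iff.mpr (by simpa using ha)
  obtain ⟨s, hs1, hs2⟩ := exists_isTranscendenceBasis_superset hind
  have has : a ∈ s := hs1 rfl
  have hcl : IsAlgClosure (Algebra.adjoin K (Set.range ((↑) : s → U))) U :=
    IsAlgClosed.isAlgClosure_of_transcendence_basis _ hs2
  let e : Algebra.adjoin K (Set.range ((↑) : s → U)) ≃ₐ[K]
      Algebra.adjoin K (Set.range ((↑) : s → U)) :=
    hs2.1.aevalEquiv.symm.trans ((transl (fun i : s => if i = ⟨a, has⟩ then c else 0)).trans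
      hs2.1.aevalEquiv)
  let τ : U ≃+* U := IsAlgClosure.equivOfEquiv U U e.toRingEquiv
  have hτ : ∀ x : Algebra.adjoin K (Set.range ((↑) : s → U)), τ (x : U) = (e x : U) := fun x =>
    IsAlgClosure.equivOfEquiv_algebraMap U U e.toRingEquiv x
  have hK : ∀ r : K, τ (algebraMap K U r) = algebraMap K U r := by
    intro r
    have := hτ (algebraMap K _ r)
    rw [e.commutes] at this
    exact this
  refine ⟨AlgEquiv.ofRingEquiv (f := τ) hK, ?_⟩
  have hmem : a ∈ Algebra.adjoin K (Set.range ((↑) : s → U)) :=
    Algebra.subset_adjoin ⟨⟨a, has⟩, rfl⟩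
  have h1 : hs2.1.aevalEquiv (X (⟨a, has⟩ : s)) = ⟨a, hmem⟩ := by
    apply Subtype.ext
    have := hs2.1.algebraMap_aevalEquiv (X (⟨a, has⟩ : s))
    rw [aeval_X] at this
    exact this
  have h2 : e ⟨a, hmem⟩ = ⟨a, hmem⟩ + algebraMap K _ c := by
    show hs2.1.aevalEquiv (transl _ (hs2.1.aevalEquiv.symm ⟨a, hmem⟩)) = _
    rw [← h1, AlgEquiv.symm_apply_apply, transl_X, if_pos rfl, map_add]
    congr 1
    rw [← algebraMap_eq, AlgEquiv.commutes]
  have h3 := hτ ⟨a, hmem⟩
  rw [h2] at h3
  exact h3

/-- elements with finite orbit are constants -/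
theorem mem_of_finite_orbit {a : U} (h : (Set.range fun σ : U ≃ₐ[K] U => σ a).Finite) :
    ∃ c : K, algebraMap K U c = a := by
  by_contra hcon
  have htr : Transcendental K a := by
    intro halg
    haveI : FiniteDimensional K K⟮a⟯ := IntermediateField.adjoin.finiteDimensional halg.isIntegral
    obtain ⟨c, hc⟩ := (IsAlgClosed.algebraMap_bijective_of_isIntegral (k := K) (K := K⟮a⟯)).2
      ⟨a, IntermediateField.mem_adjoin_simple_self K a⟩
    exact hcon ⟨c, congrArg Subtype.val hc⟩
  have hinf : (Set.range fun c : K => a + algebraMap K U c).Infinite := by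
    apply Set.infinite_range_of_injective
    intro c c' hcc
    exact (algebraMap K U).injective (add_left_cancel hcc)
  apply hinf
  refine h.subset ?_
  rintro _ ⟨c, rfl⟩
  obtain ⟨σ, hσ⟩ := exists_aut_add htr c
  exact ⟨σ, hσ⟩

end Fermat.Agent.BCh
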