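import Fermat.Agent.BCh.Ext
import Fermat.Agent.Zeta.Frob
import Fermat.Agent.Ultra.AllInt
import Fermat.Agent.FF.Valuations

/-! Places under extension of the constant field. -/

set_option autoImplicit false
set_option linter.style.haveILetI false

open AlgebraicCurve Module Fermat.Agent.RRC Fermat.Agent.Zeta Fermat.Agent.Ultra

namespace Fermat.Agent.BCh

variable {K F U B : Type*} [Field K] [Field F] [Field U] [Field B] [Algebra K F] [Algebra K U]
    [Algebra U B]

namespace Ext

variable (d : Ext K F U B)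

/-- nonconstant elements stay nonconstant -/
theorem nonconst {f : F} (hf : ∀ a : K, f ≠ algebraMap K F a) (u : U) :
    d.ι f ≠ algebraMap U B u := by
  intro h
  have h1 : LinearIndependent K ![(1 : F), f] := by
    rw [LinearIndependent.pair_iff]
    intro s t hst
    have ht : t = 0 := by
      by_contra ht
      apply hf (-s / t)
      rw [map_div₀, map_neg, eq_div_iff ((map_ne_zero_iff _ (algebraMap K F).injective).mpr ht)]
      rw [Algebra.smul_def, Algebra.smul_def, mul_one] at hst
      linear_combination hst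
    subst ht
    rw [zero_smul, add_zero, Algebra.smul_def, mul_one] at hst
    exact ⟨(map_eq_zero_iff _ (algebraMap K F).injective).mp hst, rfl⟩
  have h2 := d.indep _ h1
  have h3 : (fun i => d.ι (![(1 : F), f] i)) = ![(1 : B), d.ι f] := by
    ext i
    fin_cases i
    · simp
    · simp
  rw [h3, LinearIndependent.pair_iff] at h2
  have h4 := h2 (-u) 1 (by rw [h, one_smul, Algebra.smul_def, map_neg, mul_one, neg_add_cancel])
  exact one_ne_zero h4.2

variable [FF K F] [FF U B]

omit [FF K F] in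
theorem exists_pole {f : F} (hf : ∀ a : K, f ≠ algebraMap K F a) :
    ∃ Q : Place U B, Q.ord (d.ι f) < 0 := by
  by_contra hcon
  push Not at hcon
  have h1 : d.ι f ∈ riemannRochSpace (0 : Divisor U B) := by
    rw [mem_riemannRochSpace_iff]
    intro Q
    right
    simpa using hcon Q
  obtain ⟨u, hu⟩ := mem_L_zero_iff.mp h1
  exact d.nonconst hf u hu

section restr

variable [Fermat.Agent.FF.IsFnField K F] [CharZero K]

omit [FF K F] [FF U B] in
/-- places of `B` which are nontrivial on `F` -/
theorem exists_restrict (Q : Place U B) {f : F} (hf : Q.ord (d.ι f) ≠ 0) :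
    ∃ (P : Place K F) (e : ℤ), 0 < e ∧ ∀ x : F, Q.ord (d.ι x) = e * P.ord x := by
  set V : ValuationSubring F := Q.toValuationSubring.comap d.ι with hV
  have hmem : ∀ x : F, x ≠ 0 → (x ∈ V ↔ 0 ≤ Q.ord (d.ι x)) := by
    intro x hx
    rw [hV, ValuationSubring.mem_comap]
    exact mem_vs_iff_ord Q
  have hK : ∀ a : K, algebraMap K F a ∈ V := by
    intro a
    rw [hV, ValuationSubring.mem_comap, d.ι_alg]
    exact Q.algebraMap_mem' _
  have hf0 : f ≠ 0 := by
    rintro rfl
    rw [map_zero, Place.ord_zero] at hf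
    exact hf rfl
  have hVtop : V ≠ ⊤ := by
    intro h
    have h1 := (hmem f hf0).mp (h ▸ ValuationSubring.mem_top _)
    have h2 := (hmem f⁻¹ (inv_ne_zero hf0)).mp (h ▸ ValuationSubring.mem_top _)
    rw [map_inv₀, Q.ord_inv] at h2
    omega
  obtain ⟨P, hP⟩ := Fermat.Agent.FF.exists_place_of_valuationSubring (K := K) V hK hVtop
  have hmem2 : ∀ x : F, x ≠ 0 → (0 ≤ P.ord x ↔ 0 ≤ Q.ord (d.ι x)) := by
    intro x hx
    rw [← hmem x hx, ← hP]
    exact (mem_vs_iff_ord P).symm
  have ht0 : unif P ≠ 0 := unif_ne_zero P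
  have hιt0 : d.ι (unif P) ≠ 0 := (map_ne_zero_iff _ d.ι.injective).mpr ht0
  refine ⟨P, Q.ord (d.ι (unif P)), ?_, fun x => ?_⟩
  · by_contra hcon
    have h1 : 0 ≤ Q.ord (d.ι (unif P)⁻¹) := by
      rw [map_inv₀, Q.ord_inv]
      omega
    have h2 := (hmem2 _ (inv_ne_zero ht0)).mpr h1
    rw [P.ord_inv, ord_unif] at h2
    omega
  · rcases eq_or_ne x 0 with rfl | hx
    · simp
    have hιx0 : d.ι x ≠ 0 := (map_ne_zero_iff _ d.ι.injective).mpr hx
    set n := P.ord x with hn
    have hu : P.ord (x * (unif P) ^ (-n)) = 0 := by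
      rw [P.ord_mul hx (zpow_ne_zero _ ht0), P.ord_zpow, ord_unif, ← hn]
      ring
    have hu0 : x * (unif P) ^ (-n) ≠ 0 := mul_ne_zero hx (zpow_ne_zero _ ht0)
    have h1 := (hmem2 _ hu0).mp hu.ge
    have h2 := (hmem2 _ (inv_ne_zero hu0)).mp (by rw [P.ord_inv, hu, neg_zero])
    rw [map_inv₀, Q.ord_inv] at h2
    have h3 : Q.ord (d.ι (x * (unif P) ^ (-n))) = 0 := by omega
    rw [map_mul, map_zpow₀, Q.ord_mul hιx0 (zpow_ne_zero _ hιt0), Q.ord_zpow] at h3
    linarith

/-- places above a given place -/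
theorem exists_above (P : Place K F) :
    ∃ (Q : Place U B) (e : ℤ), 0 < e ∧ ∀ x : F, Q.ord (d.ι x) = e * P.ord x := by
  obtain ⟨f, hf, hpole⟩ := exists_only_pole P
  obtain ⟨Q, hQ⟩ := d.exists_pole hf
  obtain ⟨P', e, he, h⟩ := d.exists_restrict Q hQ.ne
  have h1 : P'.ord f < 0 := by
    rw [h] at hQ
    by_contra hcon
    push Not at hcon
    exact absurd hQ (not_lt.mpr (mul_nonneg he.le hcon))
  have h2 := (hpole P').2 h1
  subst h2
  exact ⟨Q, e, he, h⟩

end restr

section desc

variable [IsAlgClosed K] [IsAlgClosed U] [Fermat.Agent.FF.IsFnField K F] [CharZero K]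

omit [FF K F] [FF U B] [IsAlgClosed K] [IsAlgClosed U] [Fermat.Agent.FF.IsFnField K F] [CharZero K] in
theorem stable_L {D : Divisor U B} (hD : ∀ σ : U ≃ₐ[K] U, d.act σ • D = D) :
    d.Stable (riemannRochSpace D) := by
  intro σ z hz
  have := smul_mem_L (d.act σ) hz
  rwa [hD] at this

omit [FF K F] [IsAlgClosed K] [IsAlgClosed U] [Fermat.Agent.FF.IsFnField K F] [CharZero K] in
theorem act_pd (σ : U ≃ₐ[K] U) (f : F) : d.act σ • pd U (d.ι f) = pd U (d.ι f) := by
  ext Q
  rw [SemilinearAut.divisor_smul_apply, pd_apply, pd_apply, ← ord_smul', d.act_ι]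

/-- the key: a function with only pole at `P` has only one pole in `B` -/
theorem degree_pd_le {P : Place K F} {f : F} (hf : ∀ w : Place K F, w.ord f < 0 → w = P)
    (hf0 : P.ord f < 0) :
    Divisor.degree (pd U (d.ι f)) ≤ -P.ord f := by
  classical
  set D := pd U (d.ι f) with hD
  set m : ℤ := -P.ord f with hm
  have hDapp : ∀ Q : Place U B, D Q = max (-Q.ord (d.ι f)) 0 := fun Q => pd_apply _ Q
  have key : ∀ r : ℕ, (r : ℤ) * Divisor.degree D + 1 - genusFF U B ≤ r * m + 1 := by
    intro r
    have hst : ∀ σ : U ≃ₐ[K] U, d.act σ • (r • D) = r • D := by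
      intro σ
      rw [smul_comm, hD, d.act_pd]
    have h1 := d.finrank_rat (d.stable_L hst)
    have h2 : d.rat (riemannRochSpace (r • D)) ≤
        riemannRochSpace (Finsupp.single P ((r : ℤ) * m) : Divisor K F) := by
      intro x hx
      rw [mem_rat] at hx
      rcases eq_or_ne x 0 with rfl | hx0
      · exact zero_mem _
      have hιx0 : d.ι x ≠ 0 := (map_ne_zero_iff _ d.ι.injective).mpr hx0
      rw [mem_riemannRochSpace_iff]
      intro P'
      right
      obtain ⟨Q, e, he, hQ⟩ := d.exists_above P'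
      have h3 := (mem_riemannRochSpace_iff.mp hx Q).resolve_left hιx0
      have h4 : (r • D) Q = r * max (-(e * P'.ord f)) 0 := by
        rw [Finsupp.smul_apply, hDapp, hQ, nsmul_eq_mul]
      rw [h4, hQ] at h3
      rw [Finsupp.single_apply]
      split_ifs with hPP
      · subst hPP
        have h5 : max (-(e * P.ord f)) 0 = e * m := by
          rw [max_eq_left]
          · rw [hm]; ring
          · have : e * P.ord f ≤ 0 := mul_nonpos_of_nonneg_of_nonpos he.le hf0.le
            omega
        rw [h5] at h3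
        have h6 : e * (-(r * m)) ≤ e * P.ord x := by linarith
        exact le_of_mul_le_mul_left h6 he
      · have h5 : 0 ≤ P'.ord f := by
          by_contra h6
          exact hPP (hf P' (not_le.mp h6)).symm
        have h6 : max (-(e * P'.ord f)) 0 = 0 := by
          rw [max_eq_right]
          have := mul_nonneg he.le h5
          omega
        rw [h6] at h3
        rw [neg_zero]
        by_contra h7
        have h8 : e * P'.ord x < 0 := mul_neg_of_pos_of_neg he (not_le.mp h7)
        linarith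
    have h3 : finrank K (d.rat (riemannRochSpace (r • D))) ≤
        finrank K (riemannRochSpace (Finsupp.single P ((r : ℤ) * m) : Divisor K F)) :=
      Submodule.finrank_mono h2
    have h4 := finrank_L_le (Finsupp.single P ((r : ℤ) * m) : Divisor K F)
    have h5 := riemann_inequality (r • D)
    rw [degree_single'] at h4
    rw [map_nsmul, nsmul_eq_mul] at h5
    have h6 : 0 ≤ (r : ℤ) * m := mul_nonneg (by positivity) (by omega)
    rw [max_eq_right (by omega)] at h4
    omega
  by_contra hcon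
  push Not at hcon
  have h1 := key (genusFF U B + 1)
  push_cast at h1
  nlinarith [h1, hcon]

theorem above_unique {P : Place K F} {Q Q' : Place U B} {e e' : ℤ} (he : 0 < e)
    (h : ∀ x : F, Q.ord (d.ι x) = e * P.ord x) (he' : 0 < e')
    (h' : ∀ x : F, Q'.ord (d.ι x) = e' * P.ord x) : e = 1 ∧ Q' = Q := by
  classical
  obtain ⟨f, -, hpole⟩ := exists_only_pole P
  have hf0 := (hpole P).1
  have h1 := d.degree_pd_le (fun w hw => (hpole w).2 hw) hf0
  have h2 : pd U (d.ι f) Q = e * (-P.ord f) := by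
    rw [pd_apply, h, max_eq_left]
    · ring
    · have : e * P.ord f ≤ 0 := mul_nonpos_of_nonneg_of_nonpos he.le hf0.le
      omega
  have h3 : (Finsupp.single Q (e * (-P.ord f)) : Divisor U B) ≤ pd U (d.ι f) := by
    intro w
    rw [Finsupp.single_apply]
    split_ifs with hw
    · rw [← hw, h2]
    · exact pd_nonneg (d.ι f) w
  have h4 := degree_mono h3
  rw [degree_single'] at h4
  have h5 : e = 1 := by
    by_contra hne
    have h6 : 2 ≤ e := by omega
    nlinarith
  refine ⟨h5, ?_⟩
  subst h5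
  have h6 := eq_of_le_of_degree_eq h3 (by rw [degree_single']; linarith)
  by_contra hne
  have h7 : pd U (d.ι f) Q' = 0 := by
    rw [← h6, Finsupp.single_apply, if_neg (Ne.symm hne)]
  rw [pd_apply, h'] at h7
  have h8 : e' * P.ord f < 0 := mul_neg_of_pos_of_neg he' hf0
  omega

/-- the unique place above `P` -/
noncomputable def up (P : Place K F) : Place U B := (d.exists_above P).choose

theorem ord_up (P : Place K F) (x : F) : (d.up P).ord (d.ι x) = P.ord x := by
  obtain ⟨e, he, h⟩ := (d.exists_above P).choose_spec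
  have h1 := (d.above_unique he h he h).1
  subst h1
  rw [up, h, one_mul]

theorem eq_up {P : Place K F} {Q : Place U B} {e : ℤ} (he : 0 < e)
    (h : ∀ x : F, Q.ord (d.ι x) = e * P.ord x) : Q = d.up P :=
  (d.above_unique one_pos (fun x => by rw [d.ord_up, one_mul]) he h).2

theorem eq_up_of_ord_ne_zero {Q : Place U B} {f : F} (hf : Q.ord (d.ι f) ≠ 0) :
    ∃ P, Q = d.up P := by
  obtain ⟨P, e, he, h⟩ := d.exists_restrict Q hf
  exact ⟨P, d.eq_up he h⟩

theorem up_injective : Function.Injective d.up := by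
  intro P P' h
  obtain ⟨f, -, hpole⟩ := exists_only_pole P
  have h1 : P'.ord f < 0 := by
    rw [← d.ord_up, ← h, d.ord_up]
    exact (hpole P).1
  exact ((hpole P').2 h1).symm

theorem act_up (σ : U ≃ₐ[K] U) (P : Place K F) : d.act σ • d.up P = d.up P := by
  refine d.eq_up one_pos fun x => ?_
  have h := ord_smul' (d.act σ)⁻¹ (d.up P) (d.ι x)
  rw [inv_inv, ← map_inv, d.act_ι] at h
  rw [← h, d.ord_up, one_mul]

/-- places with finite orbit come from `F` -/
theorem eq_up_of_finite_orbit {Q : Place U B}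
    (hQ : (Set.range fun σ : U ≃ₐ[K] U => d.act σ • Q).Finite) : ∃ P, Q = d.up P := by
  by_contra hcon
  have h0 : ∀ f : F, Q.ord (d.ι f) = 0 := by
    intro f
    by_contra h
    exact hcon (d.eq_up_of_ord_ne_zero h)
  obtain ⟨P⟩ : Nonempty (Place K F) := inferInstance
  obtain ⟨f, hf, -⟩ := exists_only_pole P
  -- residue of `f` at all places of `B`
  have hres : ∀ σ : U ≃ₐ[K] U, ∃ u : U, 0 < (d.act σ • Q).ord (d.ι f - algebraMap U B u) := by
    intro σ
    have h1 : (d.act σ • Q).ord (d.ι f) = 0 := by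
      have h := ord_smul' (d.act σ)⁻¹ Q (d.ι f)
      rw [inv_inv, ← map_inv, d.act_ι] at h
      rw [← h, h0]
    obtain ⟨u, hu⟩ := exists_res (d.act σ • Q) (f := d.ι f) (by
      rw [← mem_iff]
      exact (mem_vs_iff_ord _).mpr h1.ge)
    have h2 : d.ι f - algebraMap U B u ≠ 0 := sub_ne_zero.mpr (d.nonconst hf u)
    refine ⟨u, ?_⟩
    rw [val_eq_exp _ h2, ← WithZero.exp_zero, WithZero.exp_lt_exp] at hu
    omega
  have huniq : ∀ (Q' : Place U B) (u u' : U), 0 < Q'.ord (d.ι f - algebraMap U B u) →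
      0 < Q'.ord (d.ι f - algebraMap U B u') → u = u' := by
    intro Q' u u' h h'
    by_contra hne
    have h1 : (d.ι f - algebraMap U B u) + (-(d.ι f - algebraMap U B u')) =
        algebraMap U B (u' - u) := by
      rw [map_sub]; ring
    have h2 := min_ord_le_ord_add Q' (f := d.ι f - algebraMap U B u)
      (g := -(d.ι f - algebraMap U B u'))
      (by rw [h1]; exact (map_ne_zero_iff _ (algebraMap U B).injective).mpr
            (sub_ne_zero.mpr (Ne.symm hne)))
      (sub_ne_zero.mpr (d.nonconst hf u)) (neg_ne_zero.mpr (sub_ne_zero.mpr (d.nonconst hf u')))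
    rw [h1, ord_algebraMap, RRC.ord_neg] at h2
    omega
  obtain ⟨u, hu⟩ := hres 1
  rw [map_one, one_smul] at hu
  have hσ : ∀ σ : U ≃ₐ[K] U, 0 < (d.act σ • Q).ord (d.ι f - algebraMap U B (σ u)) := by
    intro σ
    have h := ord_smul' (d.act σ)⁻¹ Q (d.ι f - algebraMap U B (σ u))
    rw [inv_inv] at h
    rw [← h, smul_sub, ← map_inv, d.act_ι, d.act_algebraMap]
    have : σ⁻¹ (σ u) = u := σ.symm_apply_apply u
    rw [this]
    exact hu
  have hfin : (Set.range fun σ : U ≃ₐ[K] U => σ u).Finite := by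
    choose! r hr using fun (Q' : Place U B)
      (h : ∃ v : U, 0 < Q'.ord (d.ι f - algebraMap U B v)) => h
    refine (hQ.image r).subset ?_
    rintro _ ⟨σ, rfl⟩
    exact ⟨d.act σ • Q, ⟨σ, rfl⟩, huniq _ _ _ (hr _ ⟨_, hσ σ⟩) (hσ σ)⟩
  obtain ⟨c, hc⟩ := mem_of_finite_orbit hfin
  have h1 := h0 (f - algebraMap K F c)
  rw [map_sub, d.ι_alg, hc] at h1
  omega

end desc

end Ext

end Fermat.Agent.BCh
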